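import Fermat.Agent.DS.Wt1.Dual
import Fermat.Agent.RM.Eisen

/-!
# Conjugates of forms of weight one

For `f` of weight one and level `Γ₁(N)` the products `f b`, `f f` (`b = η(z)³ / η(3z)`) have weight
two, so their coefficients lie in finitely generated rings and their conjugates are forms; the
quotient by `b` of the conjugate of `f b` has the conjugate of `f²` as its square, so it is a cusp
form of weight one.
-/

set_option autoImplicit false

noncomputable section

open Function UpperHalfPlane CongruenceSubgroup ModularFormClass Filter Topology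
open scoped MatrixGroups ModularForm Manifold

namespace Fermat.DS

open Fermat.MC.Lvl
open Fermat.MC (BddPer)
open Fermat.RM (bFun etaInt)

/-- The subgroup `{± 1}`. -/
def pmH (M : ℕ) : Subgroup (ZMod M)ˣ := Subgroup.zpowers (-1)

/-- `-1` lies in `{± 1}`. -/
instance (M : ℕ) : NegMem (pmH M) := ⟨Subgroup.mem_zpowers _⟩

/-- The elements of `pmH` are `1` and `-1`. -/
theorem mem_pmH {M : ℕ} {u : (ZMod M)ˣ} (hu : u ∈ pmH M) : u = 1 ∨ u = -1 := by
  obtain ⟨k, rfl⟩ := Subgroup.mem_zpowers_iff.mp hu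
  rcases Int.even_or_odd k with hk | hk
  · exact Or.inl hk.neg_one_zpow
  · exact Or.inr hk.neg_one_zpow

/-- `Γ_{±1}(M)` is `± Γ₁(M)`. -/
theorem mem_Gamma1_or_neg {M : ℕ} {γ : SL(2, ℤ)} (hγ : γ ∈ GammaH M (pmH M)) :
    γ ∈ Gamma1 M ∨ -γ ∈ Gamma1 M := by
  obtain ⟨h0, u, hu, e⟩ := mem_GammaH_iff.mp hγ
  have hc := Gamma0_mem.mp h0
  have hd := Gamma0_entries h0
  rcases mem_pmH hu with rfl | rfl
  · rw [Units.val_one] at e
    rw [← e, mul_one] at hd
    exact Or.inl ((Gamma1_mem M γ).mpr ⟨hd, e.symm, hc⟩)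
  · rw [Units.val_neg, Units.val_one] at e
    rw [← e, mul_neg, mul_one, neg_eq_iff_eq_neg] at hd
    refine Or.inr ((Gamma1_mem M _).mpr ⟨?_, ?_, ?_⟩) <;> simp [hc, hd, ← e]

/-- `Γ₁(M) ≤ Γ₁(N)` for `N ∣ M`. -/
theorem Gamma1_le_of_dvd {M N : ℕ} (h : N ∣ M) : Gamma1 M ≤ Gamma1 N := fun γ hγ => by
  obtain ⟨ha, hd, hc⟩ := (Gamma1_mem M γ).mp hγ
  refine (Gamma1_mem N γ).mpr ⟨?_, ?_, ?_⟩
  · have := congrArg (ZMod.castHom h (ZMod N)) ha
    rwa [map_intCast, map_one] at this
  · have := congrArg (ZMod.castHom h (ZMod N)) hd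
    rwa [map_intCast, map_one] at this
  · simpa using congrArg (ZMod.castHom h (ZMod N)) hc

section Slash

variable {N : ℕ} [NeZero N] {k : ℤ}

omit [NeZero N] in
/-- A cusp form of level `Γ₁(N)` is holomorphic, periodic and bounded at infinity. -/
theorem bddPer_Gamma1 (f : CuspForm (Gamma1 N) k) : BddPer ⇑f :=
  Fermat.MC.bddPer_of_modularFormClass f (by
    rw [Subgroup.strictPeriods_eq_zmultiples_one_of_T_mem
      ((Gamma1_mem N ModularGroup.T).mpr (by simp [ModularGroup.coe_T]))]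
    exact AddSubgroup.mem_zmultiples (1 : ℝ))

/-- A cusp form vanishes at every cusp. -/
theorem isZeroAtImInfty_slash_Gamma1 (f : CuspForm (Gamma1 N) k) (γ : SL(2, ℤ)) :
    IsZeroAtImInfty (⇑f ∣[k] γ) :=
  CuspFormClass.zero_at_infty_slash f γ

end Slash

/-- The product of two functions of weight one and level `Γ₁(M)`, one of which vanishes at every
cusp. -/
def mulForm (M : ℕ) [NeZero M] (f g : ℍ → ℂ) (hf : MDiff f) (hg : MDiff g)
    (hfi : ∀ γ ∈ Gamma1 M, f ∣[(1 : ℤ)] γ = f) (hgi : ∀ γ ∈ Gamma1 M, g ∣[(1 : ℤ)] γ = g)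
    (hf0 : ∀ γ : SL(2, ℤ), IsZeroAtImInfty (f ∣[(1 : ℤ)] γ))
    (hgb : ∀ γ : SL(2, ℤ), IsBoundedAtImInfty (g ∣[(1 : ℤ)] γ)) :
    CuspForm (GammaH M (pmH M)) 2 where
  toFun := f * g
  slash_action_eq' := fun A hA => by
    obtain ⟨γ, hγ, rfl⟩ := hA
    change (f * g) ∣[(2 : ℤ)] γ = _
    rw [show (2 : ℤ) = 1 + 1 by norm_num, ModularForm.mul_slash_SL2]
    rcases mem_Gamma1_or_neg hγ with h | h
    · rw [hfi γ h, hgi γ h]
    · have h1 := hfi _ h
      have h2 := hgi _ h
      rw [RM.weight_one_slash_neg] at h1 h2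
      rw [← neg_mul_neg, h1, h2]
  holo' := hf.mul hg
  zero_at_cusps' := fun {c} hc => by
    rw [Subgroup.IsArithmetic.isCusp_iff_isCusp_SL2Z] at hc
    rw [OnePoint.isZeroAt_iff_forall_SL2Z hc]
    intro γ _
    rw [show (2 : ℤ) = 1 + 1 by norm_num, ModularForm.mul_slash_SL2]
    have := ((Asymptotics.isLittleO_one_iff ℝ).mpr (hf0 γ)).mul_isBigO (hgb γ)
    simp only [Pi.one_apply, mul_one] at this
    exact (Asymptotics.isLittleO_one_iff ℝ).mp this

/-- The function of `mulForm`. -/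
theorem coe_mulForm (M : ℕ) [NeZero M] (f g : ℍ → ℂ) (hf : MDiff f) (hg : MDiff g)
    (hfi : ∀ γ ∈ Gamma1 M, f ∣[(1 : ℤ)] γ = f) (hgi : ∀ γ ∈ Gamma1 M, g ∣[(1 : ℤ)] γ = g)
    (hf0 : ∀ γ : SL(2, ℤ), IsZeroAtImInfty (f ∣[(1 : ℤ)] γ))
    (hgb : ∀ γ : SL(2, ℤ), IsBoundedAtImInfty (g ∣[(1 : ℤ)] γ)) :
    ⇑(mulForm M f g hf hg hfi hgi hf0 hgb) = f * g := rfl

/-! ## The eta quotient -/

/-- `b` has no zero. -/
theorem bFun_ne_zero (z : ℍ) : bFun z ≠ 0 := by
  change Fermat.RM.bC (z : ℂ) ≠ 0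
  rw [Fermat.RM.bC_eq]
  exact div_ne_zero (pow_ne_zero _ (ModularForm.eta_ne_zero z.2))
    (ModularForm.eta_ne_zero (by simpa using z.2))

/-- `b` is holomorphic, periodic and bounded at infinity. -/
theorem bddPer_bFun : BddPer bFun :=
  ⟨Fermat.RM.mdifferentiable_bFun, fun w => by
    by_cases hw : 0 < w.im
    · have hw' : 0 < (w + 1).im := by simpa using hw
      simp only [Fermat.MC.ext, comp_apply, ofComplex_apply_of_im_pos hw',
        ofComplex_apply_of_im_pos hw]
      have h := Fermat.RM.bC_add_int w 1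
      rw [Int.cast_one] at h
      exact h
    · simp [Fermat.MC.ext, ofComplex_apply_of_im_nonpos (not_lt.mp hw),
        ofComplex_apply_of_im_nonpos (show (w + 1).im ≤ 0 by simpa using not_lt.mp hw)],
    Fermat.RM.isBounded_bFun⟩

/-- The expansion of `b` is integral. -/
theorem qExpansion_one_bFun :
    qExpansion 1 bFun = PowerSeries.map (Int.castRingHom ℂ) (etaInt 1) := by
  have h := Fermat.RM.qExpansion_bFun (E := 1) one_pos
  rwa [Nat.cast_one] at h

/-- The integral expansion has constant term one. -/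
theorem constantCoeff_etaInt_one : PowerSeries.constantCoeff (etaInt 1) = 1 := by
  have h := congrArg PowerSeries.constantCoeff (Fermat.RM.etaInt_mul (E := 1) one_pos)
  rw [map_mul, map_pow, Fermat.RM.constantCoeff_eulerInt one_pos,
    Fermat.RM.constantCoeff_eulerInt (by norm_num : 0 < 3 * 1)] at h
  simpa using h

/-- `etaInt 1` is an invertible power series. -/
theorem isUnit_etaInt_one : IsUnit (etaInt 1) :=
  PowerSeries.isUnit_iff_constantCoeff.mpr (by rw [constantCoeff_etaInt_one]; exact isUnit_one)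

/-- Two bounded periodic functions with the same series agree. -/
theorem bddPer_ext {f g : ℍ → ℂ} (hf : BddPer f) (hg : BddPer g)
    (h : qExpansion 1 f = qExpansion 1 g) : f = g := by
  have h1 := Fermat.MC.qL_injective (a₁ := ⟨f, hf.mem_perAlg⟩) (a₂ := ⟨g, hg.mem_perAlg⟩)
    (by rw [Fermat.MC.qL_eq_qS hf, Fermat.MC.qL_eq_qS hg, Fermat.MC.qS, Fermat.MC.qS, h])
  exact congrArg Subtype.val h1

/-- The series of `b` is nonzero. -/
private theorem map_etaInt_one_ne_zero : PowerSeries.map (Int.castRingHom ℂ)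
    (etaInt 1) ≠ 0 := fun h0 => by
  have h1 := congrArg PowerSeries.constantCoeff h0
  rw [map_zero, ← PowerSeries.coeff_zero_eq_constantCoeff_apply, PowerSeries.coeff_map,
    PowerSeries.coeff_zero_eq_constantCoeff_apply, constantCoeff_etaInt_one, map_one] at h1
  exact one_ne_zero h1

/-- A weight two cusp form with series `S B`, for `B` the series of `b`, and one with series `S²`
give a cusp form of weight one with series `S`. -/
private theorem exists_quotient_cuspForm {M : ℕ} [NeZero M]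
    (hbi : ∀ γ ∈ Gamma1 M, bFun ∣[(1 : ℤ)] γ = bFun)
    (h F' : CuspForm (GammaH M (pmH M)) 2) (S : PowerSeries ℂ)
    (hSh : qExpansion 1 ⇑h = S * PowerSeries.map (Int.castRingHom ℂ) (etaInt 1))
    (hSF' : qExpansion 1 ⇑F' = S * S) :
    ∃ f' : CuspForm (Gamma1 M) 1, qExpansion 1 ⇑f' = S := by
  -- the quotient `w = h / b` has series `S`
  set w : ℍ → ℂ := fun z => h z / bFun z with hw
  have hh' := Fermat.MC.Lvl.bddPer_cuspForm h
  have hwb : w * bFun = ⇑h := funext fun z => div_mul_cancel₀ _ (bFun_ne_zero z)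
  have hwm : MDiff w := Fermat.MC.mdiff_of_analyticAt_ext fun z =>
    (Fermat.MC.analyticAt_ext hh'.1 z).div (Fermat.MC.analyticAt_ext bddPer_bFun.1 z)
      (by simpa [Fermat.MC.ext] using bFun_ne_zero z)
  have hwper : Periodic (Fermat.MC.ext w) 1 := fun x => by
    change h (ofComplex (x + 1)) / bFun (ofComplex (x + 1)) = h (ofComplex x) / bFun (ofComplex x)
    rw [show bFun (ofComplex (x + 1)) = bFun (ofComplex x) from bddPer_bFun.2.1 x,
      show h (ofComplex (x + 1)) = h (ofComplex x) from hh'.2.1 x]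
  have hb1 : Tendsto bFun atImInfty (𝓝 1) := by
    have hc := ((Fermat.RM.differentiableOn_etaQuot one_pos).differentiableAt
      Fermat.RM.disc_mem_nhds).continuousAt.tendsto
    rw [Fermat.RM.etaQuot_zero one_pos] at hc
    exact hc.comp (UpperHalfPlane.qParam_tendsto_atImInfty one_pos)
  have hw0 : IsZeroAtImInfty w := by
    have := (CuspFormClass.zero_at_infty_slash h (1 : SL(2, ℤ))).div hb1 one_ne_zero
    rw [zero_div] at this
    simp only [SlashAction.slash_one] at this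
    exact this
  have hwB : BddPer w := ⟨hwm, hwper, hw0.isBoundedAtImInfty⟩
  have hSw : qExpansion 1 w = S := by
    have e := qExpansion_mul hwB.analyticAt bddPer_bFun.analyticAt
    rw [hwb, hSh, qExpansion_one_bFun] at e
    exact (mul_right_cancel₀ map_etaInt_one_ne_zero e).symm
  -- and `w² = F'`
  have hwF : w * w = ⇑F' := bddPer_ext (hwB.mul hwB) (Fermat.MC.Lvl.bddPer_cuspForm F') (by
    rw [qExpansion_mul hwB.analyticAt hwB.analyticAt, hSw, hSF'])
  have hwi : ∀ γ ∈ Gamma1 M, w ∣[(1 : ℤ)] γ = w := fun γ hγ => by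
    funext z
    have e1 := congrFun (congrArg (· ∣[(2 : ℤ)] γ) hwb) z
    rw [slash_mem_eq h (Gamma1_le_GammaH hγ), ← hwb, show (2 : ℤ) = 1 + 1 by norm_num,
      ModularForm.mul_slash_SL2, hbi γ hγ] at e1
    exact mul_right_cancel₀ (bFun_ne_zero z) e1
  -- so `w` vanishes at every cusp, as its square does
  have hwz : ∀ γ : SL(2, ℤ), IsZeroAtImInfty (w ∣[(1 : ℤ)] γ) := fun γ => by
    have e : (w ∣[(1 : ℤ)] γ) * (w ∣[(1 : ℤ)] γ) = ⇑F' ∣[(2 : ℤ)] γ := by
      rw [← ModularForm.mul_slash_SL2, show (1 : ℤ) + 1 = 2 by norm_num, hwF]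
    have h0 : Tendsto (⇑F' ∣[(2 : ℤ)] γ) atImInfty (𝓝 0) := CuspFormClass.zero_at_infty_slash F' γ
    rw [← e] at h0
    refine Metric.tendsto_nhds.mpr fun ε hε => ?_
    filter_upwards [Metric.tendsto_nhds.mp h0 (ε * ε) (by positivity)] with z hz
    rw [dist_zero_right, Pi.mul_apply, norm_mul] at hz
    rw [dist_zero_right]
    exact lt_of_not_ge fun hge => not_le.mpr hz (mul_le_mul hge hge hε.le (norm_nonneg _))
  let f' : CuspForm (Gamma1 M) 1 :=
    { toFun := w
      slash_action_eq' := by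
        rintro _ ⟨γ, hγ, rfl⟩
        exact hwi γ hγ
      holo' := hwm
      zero_at_cusps' := fun hc => by
        rw [Subgroup.IsArithmetic.isCusp_iff_isCusp_SL2Z] at hc
        rw [OnePoint.isZeroAt_iff_forall_SL2Z hc]
        exact fun γ _ => hwz γ }
  exact ⟨f', hSw⟩

/-! ## The ring of coefficients and the conjugates -/

/-- **Coefficient ring and conjugates of a form of weight one.** -/
theorem exists_coeffRing {N : ℕ} [NeZero N] (f : CuspForm (Gamma1 N) 1) :
    ∃ s : Finset ℂ, (∀ n, qCoeff f n ∈ Submodule.span ℤ (s : Set ℂ)) ∧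
      ∀ χ : Algebra.adjoin ℤ (s : Set ℂ) →+* ℂ, ∃ f' : CuspForm (Gamma1 (27 * N)) 1,
        ∀ n (h : qCoeff f n ∈ Algebra.adjoin ℤ (s : Set ℂ)), qCoeff f' n = χ ⟨qCoeff f n, h⟩ := by
  classical
  set M := 27 * N with hM
  have : NeZero M := ⟨mul_ne_zero (by norm_num) (NeZero.ne N)⟩
  have hfi : ∀ γ ∈ Gamma1 M, ⇑f ∣[(1 : ℤ)] γ = ⇑f := fun γ hγ =>
    HM.slash_of_mem f (Gamma1_le_of_dvd (dvd_mul_left N 27) hγ)
  have hbi : ∀ γ ∈ Gamma1 M, bFun ∣[(1 : ℤ)] γ = bFun := fun γ hγ =>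
    Fermat.RM.bFun_slash_of_mem (Gamma1_le_of_dvd (dvd_mul_right 27 N) hγ)
  have hfh : MDiff ⇑f := (bddPer_Gamma1 f).1
  let g := mulForm M ⇑f bFun hfh Fermat.RM.mdifferentiable_bFun hfi hbi
    (isZeroAtImInfty_slash_Gamma1 f) Fermat.RM.isBounded_bFun_slash
  let F := mulForm M ⇑f ⇑f hfh hfh hfi hfi (isZeroAtImInfty_slash_Gamma1 f)
    fun γ => (isZeroAtImInfty_slash_Gamma1 f γ).isBoundedAtImInfty
  obtain ⟨sg, hsg⟩ := coeffGroup_fg M (pmH M) g
  obtain ⟨sF, hsF⟩ := coeffGroup_fg M (pmH M) F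
  set R := Algebra.adjoin ℤ ((sg ∪ sF : Finset ℂ) : Set ℂ) with hR
  have hgR : coeffGroup M (pmH M) g ≤ R.toSubmodule := by
    rw [← hsg, Submodule.span_le]
    exact fun x hx => Algebra.subset_adjoin (Finset.mem_coe.mpr (Finset.mem_union_left _ hx))
  have hFR : coeffGroup M (pmH M) F ≤ R.toSubmodule := by
    rw [← hsF, Submodule.span_le]
    exact fun x hx => Algebra.subset_adjoin (Finset.mem_coe.mpr (Finset.mem_union_right _ hx))
  let B := PowerSeries.map (Int.castRingHom ℂ) (etaInt 1)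
  obtain ⟨u, hu⟩ := isUnit_etaInt_one
  have hgS : qExpansion 1 ⇑g = qExpansion 1 ⇑f * B := by
    rw [coe_mulForm, qExpansion_mul (bddPer_Gamma1 f).analyticAt bddPer_bFun.analyticAt,
      qExpansion_one_bFun]
  have hFS : qExpansion 1 ⇑F = qExpansion 1 ⇑f * qExpansion 1 ⇑f := by
    rw [coe_mulForm, qExpansion_mul (bddPer_Gamma1 f).analyticAt (bddPer_Gamma1 f).analyticAt]
  have hB0 : B ≠ 0 := map_etaInt_one_ne_zero
  -- the series of `f` has coefficients in `R`
  let SgR : PowerSeries R :=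
    PowerSeries.mk fun n => ⟨qCoeff g n, hgR (qCoeff_mem_coeffGroup M (pmH M) g n)⟩
  let SFR : PowerSeries R :=
    PowerSeries.mk fun n => ⟨qCoeff F n, hFR (qCoeff_mem_coeffGroup M (pmH M) F n)⟩
  let ι : R →+* ℂ := R.val.toRingHom
  let cast : PowerSeries ℤ →+* PowerSeries R := PowerSeries.map (Int.castRingHom R)
  have hcast : ∀ (ψ : R →+* ℂ) (x : PowerSeries ℤ), PowerSeries.map ψ (cast x) =
      PowerSeries.map (Int.castRingHom ℂ) x := fun ψ x => by
    ext n; simp [cast]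
  have hSg : PowerSeries.map ι SgR = qExpansion 1 ⇑g := by ext n; simp [SgR, ι, qCoeff]
  have hSF : PowerSeries.map ι SFR = qExpansion 1 ⇑F := by ext n; simp [SFR, ι, qCoeff]
  let SfR : PowerSeries R := SgR * cast ↑u⁻¹
  have hmulB : SfR * cast (etaInt 1) = SgR := by
    rw [mul_assoc, ← map_mul, ← hu, Units.inv_mul, map_one, mul_one]
  have hSf : PowerSeries.map ι SfR = qExpansion 1 ⇑f := by
    have h := congrArg (PowerSeries.map ι) hmulB
    rw [map_mul, hcast, hSg, hgS] at h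
    exact mul_right_cancel₀ hB0 h
  have hsq : SfR * SfR = SFR := by
    refine PowerSeries.map_injective ι Subtype.val_injective ?_
    rw [map_mul, hSf, hSF, hFS]
  have hfn : ∀ n, qCoeff f n = ι (PowerSeries.coeff n SfR) := fun n => by
    rw [qCoeff, ← hSf, PowerSeries.coeff_map]
  have hspan : ∀ n, qCoeff f n ∈ Submodule.span ℤ ((sg ∪ sF : Finset ℂ) : Set ℂ) := fun n => by
    have e : qExpansion 1 ⇑f = qExpansion 1 ⇑g * PowerSeries.map (Int.castRingHom ℂ) ↑u⁻¹ := by
      rw [hgS, mul_assoc, ← map_mul, ← hu, Units.mul_inv, map_one, mul_one]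
    rw [qCoeff, e, PowerSeries.coeff_mul]
    refine Submodule.sum_mem _ fun x _ => ?_
    rw [PowerSeries.coeff_map, mul_comm, eq_intCast, ← zsmul_eq_mul]
    refine Submodule.smul_mem _ _ (Submodule.span_mono ?_
      (hsg.ge (qCoeff_mem_coeffGroup M (pmH M) g x.1)))
    exact_mod_cast Finset.subset_union_left
  refine ⟨sg ∪ sF, hspan, fun χ => ?_⟩
  -- the moved forms
  obtain ⟨h, hh⟩ := exists_moved_qCoeff M (pmH M) g
    (χ.toAddMonoidHom.comp (Submodule.inclusion hgR).toAddMonoidHom)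
  obtain ⟨F', hF'⟩ := exists_moved_qCoeff M (pmH M) F
    (χ.toAddMonoidHom.comp (Submodule.inclusion hFR).toAddMonoidHom)
  have hSh : qExpansion 1 ⇑h = PowerSeries.map χ SfR * B := by
    have e : qExpansion 1 ⇑h = PowerSeries.map χ SgR := by
      ext n
      rw [PowerSeries.coeff_map, PowerSeries.coeff_mk]
      exact hh n
    rw [e, ← hmulB, map_mul, hcast]
  have hSF' : qExpansion 1 ⇑F' = PowerSeries.map χ SfR * PowerSeries.map χ SfR := by
    have e : qExpansion 1 ⇑F' = PowerSeries.map χ SFR := by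
      ext n
      rw [PowerSeries.coeff_map, PowerSeries.coeff_mk]
      exact hF' n
    rw [e, ← map_mul, hsq]
  obtain ⟨f', hf'⟩ := exists_quotient_cuspForm hbi h F' _ hSh hSF'
  refine ⟨f', fun n hn => ?_⟩
  rw [qCoeff, hf', PowerSeries.coeff_map]
  exact congrArg χ (Subtype.ext (hfn n).symm)

end Fermat.DS

end
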