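import Fermat.Agent.DS.Defs
import Fermat.Agent.DS.Wt1.Prod

/-!
# The eigenvalues of a weight one form: integrality, number field, conjugates

The eigenvalues are algebraic integers in one number field, and their conjugates again come from
forms (`IsWeightOneEigen.exists_conjugate`).
-/

set_option autoImplicit false

noncomputable section

open CongruenceSubgroup ModularFormClass
open scoped MatrixGroups

namespace Fermat.DS

/-- The algebraic numbers in `ℂ`. -/
abbrev QbarC : IntermediateField ℚ ℂ := algebraicClosure ℚ ℂ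

/-- The algebraic numbers in `ℂ` are algebraically closed. -/
instance : IsAlgClosed QbarC := (algebraicClosure.isAlgClosure ℚ ℂ).isAlgClosed

variable {N : ℕ} [NeZero N] {ε : DirichletCharacter ℂ N} {f : CuspForm (Gamma1 N) 1}

/-- Character values are algebraic integers. -/
theorem isIntegral_char (ε : DirichletCharacter ℂ N) (a : ZMod N) : IsIntegral ℤ (ε a) := by
  by_cases ha : IsUnit a
  · obtain ⟨u, rfl⟩ := ha
    refine IsIntegral.of_pow (n := orderOf u) (orderOf_pos u) ?_
    rw [← map_pow, ← Units.val_pow_eq_pow_val, pow_orderOf_eq_one, Units.val_one, map_one]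
    exact isIntegral_one
  · rw [ε.map_nonunit ha]
    exact isIntegral_zero

/-- The coefficients at powers of a good prime. -/
theorem IsWeightOneEigen.prime_pow (hf : IsWeightOneEigen ε f) {p : ℕ} (hp : p.Prime)
    (hpN : ¬ p ∣ N) (k : ℕ) : qCoeff f (p ^ (k + 2)) =
      qCoeff f p * qCoeff f (p ^ (k + 1)) - ε (p : ZMod N) * qCoeff f (p ^ k) := by
  have h := hf.hecke p hp hpN (p ^ (k + 1))
  rw [← pow_succ', if_pos (dvd_pow_self p (by omega)),
    show p ^ (k + 1) / p = p ^ k by rw [pow_succ, Nat.mul_div_cancel _ hp.pos]] at h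
  linear_combination h

/-- **The eigenvalues are algebraic integers.** -/
theorem IsWeightOneEigen.isIntegral (hf : IsWeightOneEigen ε f) {p : ℕ} (hp : p.Prime)
    (hpN : ¬ p ∣ N) : IsIntegral ℤ (qCoeff f p) := by
  obtain ⟨s, hs, -⟩ := exists_coeffRing f
  set e := ε (p : ZMod N)
  set E := Algebra.adjoin ℤ ({e} : Set ℂ)
  set W : Submodule ℤ ℂ := Subalgebra.toSubmodule E * Submodule.span ℤ (s : Set ℂ) with hW
  have hWfg : W.FG :=
    (isIntegral_char ε _).fg_adjoin_singleton.mul (Submodule.fg_span s.finite_toSet)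
  -- the span of the `a (p ^ j)` over `ℤ[e]`
  let U : Submodule ℤ ℂ := Subalgebra.toSubmodule E *
    Submodule.span ℤ (Set.range fun j : ℕ => qCoeff f (p ^ j))
  have hUW : U ≤ W := Submodule.mul_le.mpr fun a ha b hb => by
    have hb' : b ∈ Submodule.span ℤ (s : Set ℂ) :=
      Submodule.span_le.mpr (by rintro _ ⟨j, rfl⟩; exact hs _) hb
    exact Submodule.mul_mem_mul ha hb'
  have hmem : ∀ (c : ℂ), c ∈ E → ∀ j, c * qCoeff f (p ^ j) ∈ U := fun c hc j =>
    Submodule.mul_mem_mul hc (Submodule.subset_span ⟨j, rfl⟩)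
  have hstep : ∀ j, qCoeff f p * qCoeff f (p ^ j) ∈ U := fun j => by
    rcases j with _ | j
    · rw [pow_zero, hf.one, mul_one]
      have := hmem 1 (one_mem E) 1
      rwa [one_mul, pow_one] at this
    · rw [show qCoeff f p * qCoeff f (p ^ (j + 1)) = qCoeff f (p ^ (j + 2)) + e * qCoeff f (p ^ j)
        by rw [hf.prime_pow hp hpN]; ring]
      refine add_mem ?_ (hmem e (Algebra.subset_adjoin (Set.mem_singleton e)) j)
      have := hmem 1 (one_mem E) (j + 2)
      rwa [one_mul] at this
  have hU2 : ∀ a ∈ E, ∀ y ∈ U, a * y ∈ U := fun a ha y hy => by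
    refine Submodule.mul_induction_on hy (fun a' ha' b' hb' => ?_) fun y z hy hz => ?_
    · rw [← mul_assoc]
      exact Submodule.mul_mem_mul (E.mul_mem ha ha') hb'
    · rw [mul_add]; exact add_mem hy hz
  have hmulU : ∀ x ∈ U, qCoeff f p * x ∈ U := fun x hx => by
    refine Submodule.mul_induction_on hx (fun a ha b hb => ?_) fun x y hx hy => ?_
    · induction hb using Submodule.span_induction with
      | mem b hb =>
        obtain ⟨j, rfl⟩ := hb
        rw [mul_left_comm]
        exact hU2 a ha _ (hstep j)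
      | zero => simp
      | add b c _ _ hb hc => rw [mul_add, mul_add]; exact add_mem hb hc
      | smul n b _ hb => rw [mul_smul_comm, mul_smul_comm]; exact U.smul_mem n hb
    · rw [mul_add]; exact add_mem hx hy
  have h1 : (1 : ℂ) ∈ U := by
    have := hmem 1 (one_mem E) 0
    rwa [one_mul, pow_zero, hf.one] at this
  have hle : Subalgebra.toSubmodule (Algebra.adjoin ℤ ({qCoeff f p} : Set ℂ)) ≤ W := by
    refine le_trans ?_ hUW
    rw [Algebra.adjoin_singleton_eq_range_aeval]
    rintro _ ⟨P, rfl⟩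
    change Polynomial.aeval (qCoeff f p) P ∈ U
    induction P using Polynomial.induction_on with
    | C a => rw [Polynomial.aeval_C, Algebra.algebraMap_eq_smul_one]; exact U.smul_mem a h1
    | add P Q hP hQ => rw [map_add]; exact add_mem hP hQ
    | monomial n a h =>
      rw [pow_succ', ← mul_assoc, mul_comm (Polynomial.C a), mul_assoc, map_mul, Polynomial.aeval_X]
      exact hmulU _ h
  have hfg : (Subalgebra.toSubmodule (Algebra.adjoin ℤ ({qCoeff f p} : Set ℂ))).FG := by
    have : Module.Finite ℤ W := Module.Finite.iff_fg.mpr hWfg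
    exact Module.Finite.iff_fg.mp (Module.Finite.of_injective
      (Submodule.inclusion hle) (Submodule.inclusion_injective hle))
  exact IsIntegral.of_mem_of_fg _ hfg _ (Algebra.subset_adjoin (Set.mem_singleton _))

/-- The eigenvalues are algebraic. -/
theorem IsWeightOneEigen.mem_QbarC (hf : IsWeightOneEigen ε f) {p : ℕ} (hp : p.Prime)
    (hpN : ¬ p ∣ N) : qCoeff f p ∈ QbarC :=
  mem_algebraicClosure_iff.mpr ((hf.isIntegral hp hpN).tower_top (A := ℚ)).isAlgebraic

/-- Character values are algebraic. -/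
theorem char_mem_QbarC (ε : DirichletCharacter ℂ N) (a : ZMod N) : ε a ∈ QbarC :=
  mem_algebraicClosure_iff.mpr ((isIntegral_char ε a).tower_top (A := ℚ)).isAlgebraic

/-- **The eigenvalues generate a number field.** -/
theorem IsWeightOneEigen.exists_numberField (hf : IsWeightOneEigen ε f) :
    ∃ K : IntermediateField ℚ ℂ, FiniteDimensional ℚ K ∧
      (∀ p : ℕ, p.Prime → ¬ p ∣ N → qCoeff f p ∈ K) ∧ ∀ a : ZMod N, ε a ∈ K := by
  classical
  obtain ⟨s, hs, -⟩ := exists_coeffRing f
  set A : Set ℂ := {x | ∃ p : ℕ, p.Prime ∧ ¬ p ∣ N ∧ qCoeff f p = x}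
  have hAs : A ⊆ Submodule.span ℚ (s : Set ℂ) := by
    rintro _ ⟨p, -, -, rfl⟩
    exact Submodule.span_subset_span ℤ ℚ (s : Set ℂ) (hs p)
  have : FiniteDimensional ℚ (Submodule.span ℚ (s : Set ℂ)) := FiniteDimensional.span_finset ℚ s
  have : FiniteDimensional ℚ (Submodule.span ℚ A) :=
    Submodule.finiteDimensional_of_le (Submodule.span_le.mpr hAs)
  obtain ⟨t, htA, ht⟩ := (Submodule.fg_span_iff_fg_span_finset_subset A).mp
    (Module.Finite.iff_fg.mp ‹FiniteDimensional ℚ (Submodule.span ℚ A)›)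
  set K := IntermediateField.adjoin ℚ ((t : Set ℂ) ∪ Set.range fun a : ZMod N => ε a)
  have : FiniteDimensional ℚ K := by
    have : Finite (((t : Set ℂ) ∪ Set.range fun a : ZMod N => ε a) : Set ℂ) :=
      (t.finite_toSet.union (Set.finite_range _)).to_subtype
    refine IntermediateField.finiteDimensional_adjoin fun x hx => ?_
    rcases hx with hx | ⟨a, rfl⟩
    · obtain ⟨p, hp, hpN, rfl⟩ := htA hx
      exact (hf.isIntegral hp hpN).tower_top
    · exact (isIntegral_char ε a).tower_top
  refine ⟨K, inferInstance, fun p hp hpN => ?_, fun a =>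
    IntermediateField.subset_adjoin ℚ _ (Or.inr ⟨a, rfl⟩)⟩
  have h : qCoeff f p ∈ Submodule.span ℚ (t : Set ℂ) :=
    ht ▸ Submodule.subset_span ⟨p, hp, hpN, rfl⟩
  exact Submodule.span_le (p := Subalgebra.toSubmodule K.toSubalgebra).mpr
    (fun x hx => IntermediateField.subset_adjoin ℚ _ (Or.inl hx)) h

/-- The character with conjugated values at a multiple of the level. -/
def conjChar (σ : QbarC →+* ℂ) (ε : DirichletCharacter ℂ N) {M : ℕ} (h : N ∣ M) :
    DirichletCharacter ℂ M :=
  MulChar.ofUnitHom (MonoidHom.toHomUnits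
    { toFun := fun u : (ZMod M)ˣ => σ ⟨ε (ZMod.unitsMap h u : (ZMod N)ˣ), char_mem_QbarC ε _⟩
      map_one' := by
        refine (congrArg σ (Subtype.ext ?_)).trans (map_one σ)
        simp
      map_mul' := fun u v => by
        rw [← map_mul σ]
        refine congrArg σ (Subtype.ext ?_)
        simp [map_mul] })

/-- The conjugate character at a prime. -/
theorem conjChar_natCast (σ : QbarC →+* ℂ) (ε : DirichletCharacter ℂ N) {M : ℕ} (h : N ∣ M) {p : ℕ}
    (hp : p.Prime) (hpM : ¬ p ∣ M) :
    conjChar σ ε h (p : ZMod M) = σ ⟨ε (p : ZMod N), char_mem_QbarC ε _⟩ := by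
  have hc : p.Coprime M := hp.coprime_iff_not_dvd.mpr hpM
  rw [show (p : ZMod M) = ((ZMod.unitOfCoprime p hc : (ZMod M)ˣ) : ZMod M) from
    (ZMod.coe_unitOfCoprime p hc).symm, conjChar, MulChar.ofUnitHom_coe]
  refine congrArg σ (Subtype.ext (congrArg ε ?_))
  simp [ZMod.unitsMap]

/-- **The conjugates of the system are systems of forms.** -/
theorem IsWeightOneEigen.exists_conjugate (hf : IsWeightOneEigen ε f) (σ : QbarC →+* ℂ) :
    ∃ f' : CuspForm (Gamma1 (27 * N)) 1,
      IsWeightOneEigen (conjChar σ ε (dvd_mul_left N 27)) f' ∧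
      ∀ p : ℕ, ∀ (hp : p.Prime) (hpN : ¬ p ∣ N), qCoeff f' p =
        σ ⟨qCoeff f p, hf.mem_QbarC hp hpN⟩ := by
  obtain ⟨s, hs, hconj⟩ := exists_coeffRing f
  -- specialise a ring of coefficients and apply `σ`
  obtain ⟨ψ⟩ := JAC.exists_specialisation (k := QbarC) s
  set A := Algebra.adjoin QbarC (s : Set ℂ)
  have hle : ∀ x ∈ Algebra.adjoin ℤ (s : Set ℂ), x ∈ A := fun x hx => by
    induction hx using Algebra.adjoin_induction with
    | mem y hy => exact Algebra.subset_adjoin hy
    | algebraMap r => exact (algebraMap_int_eq ℂ).symm ▸ intCast_mem A r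
    | add y z _ _ hy hz => exact add_mem hy hz
    | mul y z _ _ hy hz => exact mul_mem hy hz
  let inc : Algebra.adjoin ℤ (s : Set ℂ) →+* A :=
    ((Algebra.adjoin ℤ (s : Set ℂ)).val.toRingHom).codRestrict A fun x => hle x x.2
  let χ := (σ.comp ψ.toRingHom).comp inc
  obtain ⟨f', hf'⟩ := hconj χ
  have hmem : ∀ n, qCoeff f n ∈ A := fun n =>
    hle _ (Submodule.span_le (p := Subalgebra.toSubmodule (Algebra.adjoin ℤ (s : Set ℂ))).mpr
      Algebra.subset_adjoin (hs n))
  have hval : ∀ n, qCoeff f' n = σ (ψ ⟨qCoeff f n, hmem n⟩) := fun n =>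
    hf' n (Submodule.span_le (p := Subalgebra.toSubmodule (Algebra.adjoin ℤ (s : Set ℂ))).mpr
      Algebra.subset_adjoin (hs n))
  have hfix : ∀ (x : QbarC) (h : (x : ℂ) ∈ A), ψ ⟨(x : ℂ), h⟩ = x := fun x h => ψ.commutes x
  refine ⟨f', ⟨?_, fun p hp hpM n => ?_⟩, fun p hp hpN => ?_⟩
  -- the Hecke relations are carried over
  · rw [hval, show (⟨qCoeff f 1, hmem 1⟩ : A) = 1 from Subtype.ext hf.one, map_one, map_one]
  · have hpN : ¬ p ∣ N := fun h => hpM (h.mul_left 27)
    have hε : (ε (p : ZMod N) : ℂ) ∈ A := A.algebraMap_mem ⟨_, char_mem_QbarC ε _⟩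
    rw [conjChar_natCast σ ε _ hp hpM, ← hfix ⟨ε (p : ZMod N), char_mem_QbarC ε _⟩ hε,
      hval, hval p, hval n]
    have key : (⟨qCoeff f (p * n), hmem _⟩ : A) + ⟨ε (p : ZMod N), hε⟩ *
        (if p ∣ n then ⟨qCoeff f (n / p), hmem _⟩ else 0) =
          ⟨qCoeff f p, hmem _⟩ * ⟨qCoeff f n, hmem _⟩ := by
      refine Subtype.ext ?_
      have h := hf.hecke p hp hpN n
      split_ifs with hd
      · rw [if_pos hd] at h; exact h
      · rw [if_neg hd] at h; exact h
    have h2 := congrArg (fun x => σ (ψ x)) key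
    simp only [map_add, map_mul] at h2
    rw [← h2]
    split_ifs with hd
    · rw [hval]
    · simp
  · rw [hval]
    exact congrArg σ (hfix ⟨qCoeff f p, hf.mem_QbarC hp hpN⟩ (hmem p))

end Fermat.DS

end
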