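import Fermat.Agent.DS.Defs
import Fermat.Agent.DS.Wt1.Prod

/-!
# The nebentypus of a weight one eigenform

The Hecke relation at `p` makes `h = f|δ_p - ε(p) f` a form of level `Γ₁(N)` such that `z ↦ h (p z)`
has the same level; such a form is invariant under a hyperbolic matrix over `ℤ[1/p]`, so vanishes.
-/

set_option autoImplicit false
set_option linter.unusedSectionVars false

noncomputable section

open Function UpperHalfPlane CongruenceSubgroup ModularFormClass Filter Topology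
open scoped MatrixGroups ModularForm Manifold

namespace Fermat.DS

open Fermat.MC.Lvl
open Fermat.MC (BddPer)
open Fermat.HM (toReal)

variable {N : ℕ} [NeZero N]

/-- The entries of an integral matrix in `GL₂(ℝ)`. -/
theorem coe_toGL_apply (g : SL(2, ℤ)) (i j : Fin 2) :
    ((g : GL (Fin 2) ℝ) : Matrix (Fin 2) (Fin 2) ℝ) i j = ((g i j : ℤ) : ℝ) := rfl

/-- `Γ_H(N)` for trivial `H` is `Γ₁(N)`. -/
theorem GammaH_bot_eq : GammaH N (⊥ : Subgroup (ZMod N)ˣ) = Gamma1 N := by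
  refine le_antisymm (fun γ hγ => ?_) Gamma1_le_GammaH
  obtain ⟨h0, u, hu, e⟩ := mem_GammaH_iff.mp hγ
  have hd := Gamma0_entries h0
  rw [Subgroup.mem_bot.mp hu, Units.val_one] at e
  rw [← e, mul_one] at hd
  exact (Gamma1_mem N γ).mpr ⟨hd, e.symm, Gamma0_mem.mp h0⟩

/-- Elements of `Γ₀(N)` with the same lower right entry differ by an element of `Γ₁(N)`. -/
theorem mul_inv_mem_Gamma1 {g g' : SL(2, ℤ)} (h : g ∈ Gamma0 N) (h' : g' ∈ Gamma0 N)
    (e : ((g 1 1 : ℤ) : ZMod N) = ((g' 1 1 : ℤ) : ZMod N)) : g * g'⁻¹ ∈ Gamma1 N := by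
  have h1 := Gamma0_entries h
  have h2 := Gamma0_entries h'
  have hc := Gamma0_mem.mp h
  have hc' := Gamma0_mem.mp h'
  refine (Gamma1_mem N _).mpr ⟨?_, ?_, ?_⟩ <;>
    simp [Matrix.mul_apply, Fin.sum_univ_two, Matrix.adjugate_fin_two, hc, hc']
  · rw [← e]; exact h1
  · rw [e, mul_comm]; exact h2

/-- Slashing by `Γ₀(N)` depends only on the lower right entry. -/
theorem slash_eq_of_same_entry {k : ℤ} (f : CuspForm (Gamma1 N) k) {g g' : SL(2, ℤ)}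
    (h : g ∈ Gamma0 N) (h' : g' ∈ Gamma0 N)
    (e : ((g 1 1 : ℤ) : ZMod N) = ((g' 1 1 : ℤ) : ZMod N)) : ⇑f ∣[k] g = ⇑f ∣[k] g' := by
  rw [show g = g * g'⁻¹ * g' from (inv_mul_cancel_right g g').symm, SlashAction.slash_mul,
    HM.slash_of_mem f (mul_inv_mem_Gamma1 h h' e)]

/-- A cusp form of level `Γ₁(N)` slashed by an element of `Γ₀(N)`. -/
def slashForm {k : ℤ} (f : CuspForm (Gamma1 N) k) {g : SL(2, ℤ)} (hg : g ∈ Gamma0 N) :
    CuspForm (Gamma1 N) k where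
  toFun := ⇑f ∣[k] g
  slash_action_eq' := by
    rintro _ ⟨γ, hγ, rfl⟩
    change (⇑f ∣[k] g) ∣[k] γ = ⇑f ∣[k] g
    rw [← SlashAction.slash_mul, show g * γ = g * γ * g⁻¹ * g from (inv_mul_cancel_right _ g).symm,
      SlashAction.slash_mul, HM.slash_of_mem f (RM.conj_mem_Gamma1 hg hγ)]
  holo' := (CuspFormClass.holo f).slash k _
  zero_at_cusps' := fun hc => by
    rw [Subgroup.IsArithmetic.isCusp_iff_isCusp_SL2Z] at hc
    rw [OnePoint.isZeroAt_iff_forall_SL2Z hc]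
    intro γ _
    rw [← SlashAction.slash_mul]
    exact isZeroAtImInfty_slash_Gamma1 f (g * γ)

/-- The function of `slashForm`. -/
theorem coe_slashForm {k : ℤ} (f : CuspForm (Gamma1 N) k) {g : SL(2, ℤ)} (hg : g ∈ Gamma0 N) :
    ⇑(slashForm f hg) = ⇑f ∣[k] g := rfl

/-- The sum over the representatives of `T ℓ` is invariant. -/
theorem heckeSum_invariant {ℓ : ℕ} [Fact ℓ.Prime] (f : CuspForm (Gamma1 N) 1) {γ : SL(2, ℤ)}
    (hγ : γ ∈ Gamma1 N) :
    (∑ i, ⇑f ∣[(1 : ℤ)] toReal ((HM.hecke N (⊥ : Subgroup (ZMod N)ˣ) ℓ).toReps.B i)) ∣[(1 : ℤ)] γ =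
      ∑ i, ⇑f ∣[(1 : ℤ)] toReal ((HM.hecke N (⊥ : Subgroup (ZMod N)ˣ) ℓ).toReps.B i) := by
  set P := (HM.hecke N (⊥ : Subgroup (ZMod N)ˣ) ℓ).toReps
  have hγ' : γ ∈ GammaH N (⊥ : Subgroup (ZMod N)ˣ) := Gamma1_le_GammaH hγ
  rw [ModularForm.SL_slash, SlashAction.sum_slash]
  refine Fintype.sum_bijective _ (P.perm_bijective ⟨γ, hγ'⟩) _ _ fun i => ?_
  rw [← SlashAction.slash_mul, ← HM.toReal_gq γ, ← map_mul, P.mul_gq ⟨γ, hγ'⟩ i, map_mul,
    SlashAction.slash_mul, HM.toReal_gq, ← ModularForm.SL_slash,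
    HM.slash_of_mem f (GammaH_bot_eq (N := N) ▸ (P.elt ⟨γ, hγ'⟩ i).2)]

/-- A matrix of `Γ₀(N)` with lower right entry `ℓ` modulo `N`. -/
def heckeDelta (ℓ N : ℕ) [Fact ℓ.Prime] (h : ¬ ℓ ∣ N) : SL(2, ℤ) :=
  ⟨!![Int.gcdA ℓ N, -Int.gcdB ℓ N; (N : ℤ), (ℓ : ℤ)], by
    rw [Matrix.det_fin_two_of]; linear_combination HM.bezout (ℓ := ℓ) (N := N) h⟩

/-- The matrix `heckeDelta` lies in `Γ₀(N)`. -/
theorem heckeDelta_mem {ℓ : ℕ} [Fact ℓ.Prime] (h : ¬ ℓ ∣ N) : heckeDelta ℓ N h ∈ Gamma0 N :=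
  Gamma0_mem.mpr (by simp [heckeDelta])

/-- The Hecke sum at `ℓ ∤ N` in weight one is `U_ℓ` plus the twisted diagonal term. -/
theorem heckeSum_eq {ℓ : ℕ} [hℓ : Fact ℓ.Prime] (h : ¬ ℓ ∣ N) (f : ℍ → ℂ) :
    ∑ i, f ∣[(1 : ℤ)] toReal ((HM.hecke N (⊥ : Subgroup (ZMod N)ˣ) ℓ).toReps.B i) =
      ModularForm.heckeU 1 ℓ f +
        (f ∣[(1 : ℤ)] heckeDelta ℓ N h) ∣[(1 : ℤ)] ModularForm.heckeDiagMatrix ℓ := by
  rw [← (Equiv.subtypeUnivEquiv (p := fun i : Option (Fin ℓ) => i = none → ¬ ℓ ∣ N)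
      fun _ _ => h).symm.sum_comp, Fintype.sum_option, add_comm]
  congr 1
  · rw [ModularForm.heckeU, Finset.sum_range]
    refine Finset.sum_congr rfl fun j _ => ?_
    change f ∣[(1 : ℤ)] HM.toReal (HM.stdGL ℓ N _) = _
    rw [Equiv.subtypeUnivEquiv_symm_apply, Fermat.JAC.XH.toReal_stdGL_some]
  · rw [ModularForm.SL_slash, ← SlashAction.slash_mul]
    change f ∣[(1 : ℤ)] HM.toReal (HM.stdGL ℓ N _) = _
    refine congrArg (fun M => f ∣[(1 : ℤ)] M) (Units.ext (Matrix.ext fun a b => ?_))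
    rw [HM.toReal_apply, HM.coe_stdGL, Units.val_mul, Matrix.mul_apply, Fin.sum_univ_two,
      ModularForm.val_heckeDiagMatrix hℓ.out.ne_zero]
    simp only [coe_toGL_apply]
    fin_cases a <;> fin_cases b <;> simp [HM.heckeMat, heckeDelta]

/-- `h` and `z ↦ h (ℓ z)` both of level `Γ₁(N)`. -/
def IsDoubleLevel (ℓ : ℕ) (h : CuspForm (Gamma1 N) 1) : Prop :=
  ∀ γ ∈ Gamma1 N, (⇑h ∣[(1 : ℤ)] ModularForm.heckeDiagMatrix ℓ) ∣[(1 : ℤ)] γ =
    ⇑h ∣[(1 : ℤ)] ModularForm.heckeDiagMatrix ℓ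

/-- An element of `Γ₀(N)` can be changed, with the same lower right entry modulo `N`, to have
upper right entry divisible by `ℓ`. -/
theorem exists_dvd_upper {ℓ : ℕ} (hℓ : ℓ.Prime) {g : SL(2, ℤ)} (hg : g ∈ Gamma0 N) :
    ∃ g' ∈ Gamma0 N, ((g' 1 1 : ℤ) : ZMod N) = ((g 1 1 : ℤ) : ZMod N) ∧ (ℓ : ℤ) ∣ g' 0 1 := by
  have : Fact ℓ.Prime := ⟨hℓ⟩
  -- first make the upper left entry prime to `ℓ`
  obtain ⟨i, hi⟩ : ∃ i : ℤ, ((g 0 0 + i * g 1 0 : ℤ) : ZMod ℓ) ≠ 0 := by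
    by_cases ha : ((g 0 0 : ℤ) : ZMod ℓ) = 0
    · refine ⟨1, ?_⟩
      rw [one_mul, Int.cast_add, ha, zero_add]
      intro hc
      have h := congrArg (fun x : ℤ => (x : ZMod ℓ)) g.2
      rw [Matrix.det_fin_two] at h
      simp [ha, hc] at h
    · exact ⟨0, by simpa using ha⟩
  set g1 := ModularGroup.T ^ i * g
  set j : ℤ := ((-(((g1 0 1 : ℤ) : ZMod ℓ) / ((g 0 0 + i * g 1 0 : ℤ) : ZMod ℓ))).val : ℤ)
  have hT : ∀ k : ℤ, ModularGroup.T ^ k ∈ Gamma0 N := fun k =>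
    Gamma0_mem.mpr (by simp [ModularGroup.coe_T_zpow])
  refine ⟨g1 * ModularGroup.T ^ j, mul_mem (mul_mem (hT i) hg) (hT j), ?_, ?_⟩
  · have hc := Gamma0_mem.mp hg
    simp [g1, Matrix.mul_apply, Fin.sum_univ_two, ModularGroup.coe_T_zpow, Matrix.vecMul,
      dotProduct, hc]
  · rw [← ZMod.intCast_zmod_eq_zero_iff_dvd]
    have e1 : (g1 * ModularGroup.T ^ j) 0 1 = (g 0 0 + i * g 1 0) * j + g1 0 1 := by
      simp [g1, Matrix.mul_apply, Fin.sum_univ_two, ModularGroup.coe_T_zpow,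
        Matrix.vecMul, dotProduct]
    rw [e1, Int.cast_add, Int.cast_mul]
    simp only [j]
    rw [Int.cast_natCast, ZMod.natCast_zmod_val]
    field_simp
    ring

/-- An element with upper right entry divisible by `ℓ` moves past the diagonal matrix of `ℓ`, its
lower left entry getting multiplied by `ℓ`. -/
theorem toReal_gq_diag_comm {ℓ : ℕ} (hℓ : ℓ ≠ 0) {g : SL(2, ℤ)} (hb : (ℓ : ℤ) ∣ g 0 1) :
    ∃ g'' : SL(2, ℤ), (g'' 1 0 : ℤ) = g 1 0 * ℓ ∧
      (g : GL (Fin 2) ℝ) * ModularForm.heckeDiagMatrix ℓ =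
        ModularForm.heckeDiagMatrix ℓ * (g'' : GL (Fin 2) ℝ) := by
  obtain ⟨b, hb⟩ := hb
  obtain ⟨g'', hg''⟩ : ∃ g'' : SL(2, ℤ), g''.1 = !![g 0 0, b; g 1 0 * ℓ, g 1 1] := by
    refine ⟨⟨_, ?_⟩, rfl⟩
    have h := g.2
    rw [Matrix.det_fin_two] at h
    rw [Matrix.det_fin_two_of]
    linear_combination h + g 1 0 * hb
  refine ⟨g'', by rw [hg'']; rfl, Units.ext (Matrix.ext fun i j => ?_)⟩
  · rw [Units.val_mul, Units.val_mul, Matrix.mul_apply, Matrix.mul_apply, Fin.sum_univ_two,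
      Fin.sum_univ_two, ModularForm.val_heckeDiagMatrix hℓ]
    have hb' : ((g 0 1 : ℤ) : ℝ) = (ℓ : ℝ) * (b : ℝ) := by exact_mod_cast hb
    simp only [coe_toGL_apply, hg'']
    fin_cases i <;> fin_cases j <;> simp [mul_comm, hb']

/-- Slashing by `Γ₀(N)` preserves the double level property. -/
theorem IsDoubleLevel.slash {ℓ : ℕ} (hℓ : ℓ.Prime) {h : CuspForm (Gamma1 N) 1}
    (hh : IsDoubleLevel ℓ h) {g : SL(2, ℤ)} (hg : g ∈ Gamma0 N) :
    IsDoubleLevel ℓ (slashForm h hg) := by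
  obtain ⟨g', hg', e, hb⟩ := exists_dvd_upper hℓ hg
  obtain ⟨g'', hc, hcomm⟩ := toReal_gq_diag_comm hℓ.ne_zero hb
  have hg'' : g'' ∈ Gamma0 N :=
    Gamma0_mem.mpr (by rw [hc, Int.cast_mul, Gamma0_mem.mp hg', zero_mul])
  intro γ hγ
  rw [coe_slashForm, slash_eq_of_same_entry h hg hg' e.symm, ModularForm.SL_slash (γ := g'),
    ← SlashAction.slash_mul, hcomm, SlashAction.slash_mul, ← ModularForm.SL_slash,
    ← SlashAction.slash_mul, show g'' * γ = g'' * γ * g''⁻¹ * g'' from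
      (inv_mul_cancel_right _ g'').symm, SlashAction.slash_mul, hh _ (RM.conj_mem_Gamma1 hg'' hγ)]

/-- A matrix of `Γ₀(N)` with upper left entry `ℓ`. -/
def scaleMat (ℓ N : ℕ) [Fact ℓ.Prime] (h : ¬ ℓ ∣ N) : SL(2, ℤ) :=
  ⟨!![(ℓ : ℤ), -Int.gcdB ℓ N; (N : ℤ), Int.gcdA ℓ N], by
    rw [Matrix.det_fin_two_of]; linear_combination HM.bezout (ℓ := ℓ) (N := N) h⟩

/-- The matrix `scaleMat` lies in `Γ₀(N)`. -/
theorem scaleMat_mem {ℓ : ℕ} [Fact ℓ.Prime] (h : ¬ ℓ ∣ N) : scaleMat ℓ N h ∈ Gamma0 N :=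
  Gamma0_mem.mpr (by simp [scaleMat])

/-- The scaling relation of a doubly invariant form. -/
theorem IsDoubleLevel.scaling {ℓ : ℕ} [hℓ : Fact ℓ.Prime] (hN : ¬ ℓ ∣ N)
    {h : CuspForm (Gamma1 N) 1} (hh : IsDoubleLevel ℓ h) (z w : ℍ)
    (hw : (w : ℂ) = (ℓ : ℂ) ^ 2 * z) :
    (⇑h ∣[(1 : ℤ)] scaleMat ℓ N hN) z = (ℓ : ℂ) * h w := by
  have hb := HM.bezout (ℓ := ℓ) (N := N) hN
  have hℓ0 : (ℓ : ℝ) ≠ 0 := Nat.cast_ne_zero.mpr hℓ.out.ne_zero
  set g : SL(2, ℤ) := scaleMat ℓ N hN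
  set n : SL(2, ℤ) := ⟨!![1, 0; -(N : ℤ), 1], by simp [Matrix.det_fin_two_of]⟩
  have hn : n ∈ Gamma1 N := (Gamma1_mem N n).mpr ⟨by simp [n], by simp [n], by simp [n]⟩
  set D := ModularForm.heckeDiagMatrix ℓ
  -- `D n D⁻¹` fixes `h`
  have hfix : ⇑h ∣[(1 : ℤ)] (D * (n : GL (Fin 2) ℝ) * D⁻¹) = ⇑h := by
    rw [SlashAction.slash_mul, SlashAction.slash_mul, ← ModularForm.SL_slash, hh n hn,
      ← SlashAction.slash_mul, mul_inv_cancel, SlashAction.slash_one]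
  set x : GL (Fin 2) ℝ := ModularForm.upperTriangularGL (ℓ : ℝ) (-(Int.gcdB ℓ N : ℝ)) (ℓ : ℝ)⁻¹
    (by rw [mul_inv_cancel₀ hℓ0]; exact one_ne_zero)
  have hxeq : D * (n : GL (Fin 2) ℝ) * D⁻¹ * (g : GL (Fin 2) ℝ) = x := by
    have hDn : D * (n : GL (Fin 2) ℝ) = (Matrix.GeneralLinearGroup.mkOfDetNeZero
        !![1, 0; -(N : ℝ) / ℓ, 1] (by simp [Matrix.det_fin_two_of])) * D := by
      refine Units.ext (Matrix.ext fun i j => ?_)
      rw [Units.val_mul, Units.val_mul, Matrix.mul_apply, Matrix.mul_apply, Fin.sum_univ_two,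
        Fin.sum_univ_two, ModularForm.val_heckeDiagMatrix hℓ.out.ne_zero]
      simp only [coe_toGL_apply]
      fin_cases i <;> fin_cases j <;> simp [n, Matrix.GeneralLinearGroup.mkOfDetNeZero]
    rw [hDn, mul_inv_cancel_right]
    refine Units.ext (Matrix.ext fun i j => ?_)
    rw [Units.val_mul, Matrix.mul_apply, Fin.sum_univ_two, ModularForm.val_upperTriangularGL]
    have hb' : (ℓ : ℝ) * (Int.gcdA ℓ N : ℝ) + (N : ℝ) * (Int.gcdB ℓ N : ℝ) = 1 := by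
      exact_mod_cast hb
    simp only [coe_toGL_apply]
    fin_cases i <;> fin_cases j <;> simp [g, scaleMat, Matrix.GeneralLinearGroup.mkOfDetNeZero]
    all_goals field_simp
    all_goals linear_combination hb'
  have e : ⇑h ∣[(1 : ℤ)] g = ⇑h ∣[(1 : ℤ)] x := by
    rw [← hxeq, SlashAction.slash_mul, hfix, ← ModularForm.SL_slash]
  rw [e]
  have hdet : ((x.det : ℝˣ) : ℝ) = 1 := by
    rw [Matrix.GeneralLinearGroup.val_det_apply, ModularForm.val_upperTriangularGL,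
      Matrix.det_fin_two_of]
    field_simp
    ring
  have hpos : 0 < ((x.det : ℝˣ) : ℝ) := by rw [hdet]; exact one_pos
  have hσ : UpperHalfPlane.σ x = ContinuousAlgEquiv.refl ℝ ℂ := by
    rw [UpperHalfPlane.σ, if_pos hpos]
  rw [ModularForm.slash_apply, hσ, hdet]
  have hden : denom x z = ((ℓ : ℂ))⁻¹ := by simp [x, denom]
  simp only [ContinuousAlgEquiv.refl_apply, abs_one, Complex.ofReal_one, one_zpow, mul_one, hden]
  rw [zpow_neg_one, inv_inv, mul_comm]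
  congr 1
  -- move by an integral translation
  have hx : ((x • z : ℍ) : ℂ) = ((-(Int.gcdB ℓ N * (ℓ : ℤ)) : ℤ) : ℂ) + w := by
    have hℓc : (ℓ : ℂ) ≠ 0 := Nat.cast_ne_zero.mpr hℓ.out.ne_zero
    rw [UpperHalfPlane.coe_smul_of_det_pos hpos, hden, hw]
    simp [x, num]
    field_simp
    ring
  have hT : ModularGroup.T ^ (-(Int.gcdB ℓ N * (ℓ : ℤ))) ∈ Gamma1 N :=
    (Gamma1_mem N _).mpr (by simp [ModularGroup.coe_T_zpow])
  have h2 := congrFun (HM.slash_of_mem h hT) w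
  rw [ModularForm.SL_slash_apply, UpperHalfPlane.modular_T_zpow_smul] at h2
  have hd1 : denom ((ModularGroup.T ^ (-(Int.gcdB ℓ N * (ℓ : ℤ))) : SL(2, ℤ)) : GL
      (Fin 2) ℝ) w = 1 := by
    rw [denom]
    simp [ModularGroup.coe_T_zpow, -map_zpow, -zpow_neg]
  rw [hd1, one_zpow, mul_one] at h2
  rw [← h2]
  congr 1
  refine UpperHalfPlane.ext ?_
  rw [hx, UpperHalfPlane.coe_vadd]
  push_cast
  ring

/-- **A doubly invariant form vanishes.** A weight one form `h` with `h (ℓ z)` also of level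
`Γ₁(N)`, `ℓ ∤ N`, is zero. -/
theorem IsDoubleLevel.eq_zero {ℓ : ℕ} [hℓ : Fact ℓ.Prime] (hN : ¬ ℓ ∣ N)
    {h : CuspForm (Gamma1 N) 1} (hh : IsDoubleLevel ℓ h) : ⇑h = 0 := by
  set g := scaleMat ℓ N hN
  have hg : g ∈ Gamma0 N := scaleMat_mem hN
  -- iterate the scaling
  have hiter : ∀ (J : ℕ) (z w : ℍ), (w : ℂ) = (ℓ : ℂ) ^ (2 * J) * z →
      (⇑h ∣[(1 : ℤ)] (g ^ J)) z = (ℓ : ℂ) ^ J * h w := by
    intro J
    induction J with
    | zero =>
      intro z w hw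
      rw [Nat.mul_zero, pow_zero, one_mul] at hw
      rw [pow_zero, SlashAction.slash_one, pow_zero, one_mul, UpperHalfPlane.ext hw]
    | succ J ih =>
      intro z w hw
      have hgJ : g ^ J ∈ Gamma0 N := pow_mem hg J
      let w1 : ℍ := ⟨(ℓ : ℂ) ^ 2 * z, by
        rw [← Nat.cast_pow, Complex.mul_im, Complex.natCast_re, Complex.natCast_im,
          zero_mul, add_zero]
        exact mul_pos (Nat.cast_pos.mpr (pow_pos hℓ.out.pos 2)) z.2⟩
      have h1 := (hh.slash hℓ.out hgJ).scaling hN z w1 rfl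
      rw [coe_slashForm, ← SlashAction.slash_mul, ← pow_succ] at h1
      rw [h1, ih w1 w (by rw [hw]; change _ = (ℓ : ℂ) ^ (2 * J) * ((ℓ : ℂ) ^ 2 * z); ring),
        ← mul_assoc, ← pow_succ']
  obtain ⟨m, hm, hgm⟩ : ∃ m : ℕ, 0 < m ∧ ∀ i : ℕ, g ^ (m * i) ∈ Gamma1 N := by
    obtain ⟨u, hu⟩ : IsUnit ((Gamma0Map N) ⟨g, hg⟩) :=
      IsUnit.of_mul_eq_one _ (by rw [mul_comm]; exact Gamma0_entries hg)
    refine ⟨orderOf u, orderOf_pos u, fun i => ?_⟩
    have hmem : g ^ (orderOf u * i) ∈ Gamma0 N := pow_mem hg _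
    have e : (((g ^ (orderOf u * i) : SL(2, ℤ)) 1 1 : ℤ) : ZMod N) = 1 := by
      have h1 := map_pow (Gamma0Map N) ⟨g, hg⟩ (orderOf u * i)
      rw [← hu, ← Units.val_pow_eq_pow_val, show u ^ (orderOf u * i) = 1 by
        rw [pow_mul, pow_orderOf_eq_one, one_pow], Units.val_one] at h1
      exact h1
    have he := Gamma0_entries hmem
    rw [e, mul_one] at he
    exact (Gamma1_mem N _).mpr ⟨he, e, Gamma0_mem.mp hmem⟩
  have hper : (1 : ℝ) ∈ (Gamma1 N : Subgroup (GL (Fin 2) ℝ)).strictPeriods := by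
    rw [Subgroup.strictPeriods_eq_zmultiples_one_of_T_mem
      ((Gamma1_mem N ModularGroup.T).mpr (by simp [ModularGroup.coe_T]))]
    exact AddSubgroup.mem_zmultiples (1 : ℝ)
  obtain ⟨C, hC⟩ := (CuspFormClass.exp_decay_atImInfty (h := 1) h one_pos hper).bound
  obtain ⟨A, hA⟩ := (UpperHalfPlane.atImInfty_mem _).mp hC
  funext z
  rw [Pi.zero_apply, ← norm_eq_zero]
  have hℓ2 : (1 : ℝ) < (ℓ : ℝ) := by exact_mod_cast hℓ.out.one_lt
  set y := z.im
  have hy : 0 < y := z.2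
  have hmi : Tendsto (fun i : ℕ => (ℓ : ℝ) ^ (m * i)) atTop atTop :=
    (tendsto_pow_atTop_atTop_of_one_lt hℓ2).comp
      (tendsto_atTop_mono (fun i => Nat.le_mul_of_pos_left i hm) tendsto_id)
  have hbound : ∀ᶠ i : ℕ in atTop, ‖h z‖ ≤ (max C 0 / (2 * Real.pi * y)) *
      ((ℓ : ℝ) ^ (m * i))⁻¹ := by
    filter_upwards [hmi.eventually_ge_atTop (max (A / y) 1)] with i hi
    set L : ℝ := (ℓ : ℝ) ^ (m * i)
    have hL1 : 1 ≤ L := (le_max_right _ _).trans hi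
    have hLA : A ≤ L * L * y := by
      have h1 : A / y ≤ L * L := ((le_max_left _ _).trans hi).trans
        (le_mul_of_one_le_left (by linarith) hL1)
      rwa [div_le_iff₀ hy] at h1
    let w : ℍ := ⟨(ℓ : ℂ) ^ (2 * (m * i)) * z, by
      rw [← Nat.cast_pow, Complex.mul_im, Complex.natCast_re, Complex.natCast_im,
        zero_mul, add_zero]
      exact mul_pos (Nat.cast_pos.mpr (pow_pos hℓ.out.pos _)) z.2⟩
    have hwim : w.im = L * L * y := by
      change ((ℓ : ℂ) ^ (2 * (m * i)) * (z : ℂ)).im = _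
      rw [← Nat.cast_pow, Complex.mul_im, Complex.natCast_re, Complex.natCast_im,
        zero_mul, add_zero, Nat.cast_pow, two_mul, pow_add]
      rfl
    have e := hiter (m * i) z w rfl
    rw [HM.slash_of_mem h (hgm i)] at e
    have hw := hA w (hwim ▸ hLA)
    simp only [Set.mem_ofPred_eq, Real.norm_eq_abs, Real.abs_exp, div_one, hwim] at hw
    rw [e, norm_mul, norm_pow, Complex.norm_natCast]
    have hx : 0 < 2 * Real.pi * (L * L * y) := by positivity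
    have hexp : Real.exp (-2 * Real.pi * (L * L * y)) ≤ (2 * Real.pi * (L * L * y))⁻¹ := by
      rw [show -2 * Real.pi * (L * L * y) = -(2 * Real.pi * (L * L * y)) by ring, Real.exp_neg]
      exact inv_anti₀ hx ((le_add_of_nonneg_right zero_le_one).trans (Real.add_one_le_exp _))
    calc L * ‖h w‖ ≤ L * (max C 0 * (2 * Real.pi * (L * L * y))⁻¹) := by
          refine mul_le_mul_of_nonneg_left (hw.trans ?_) (by linarith)
          exact mul_le_mul (le_max_left _ _) hexp (Real.exp_pos _).le (le_max_right _ _)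
      _ = max C 0 / (2 * Real.pi * y) * L⁻¹ := by
          have : L ≠ 0 := by linarith
          field_simp
  have hlim : Tendsto (fun i : ℕ => (max C 0 / (2 * Real.pi * y)) * ((ℓ : ℝ) ^ (m * i))⁻¹)
      atTop (𝓝 0) := by
    simpa using (tendsto_inv_atTop_zero.comp hmi).const_mul (max C 0 / (2 * Real.pi * y))
  exact le_antisymm (ge_of_tendsto hlim hbound) (norm_nonneg _)

/-- **The nebentypus:** a weight one eigenform transforms under `Γ₀(N)` by `ε d`. -/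
theorem IsWeightOneEigen.slash_eq {ε : DirichletCharacter ℂ N} {f : CuspForm (Gamma1 N) 1}
    (hf : IsWeightOneEigen ε f) {g : SL(2, ℤ)} (hg : g ∈ Gamma0 N) :
    ⇑f ∣[(1 : ℤ)] g = ε ((g 1 1 : ℤ) : ZMod N) • ⇑f := by
  obtain ⟨ℓ, hℓN, hℓp, hℓd⟩ := Nat.forall_exists_prime_gt_and_eq_mod
    (show IsUnit ((g 1 1 : ℤ) : ZMod N) from
      IsUnit.of_mul_eq_one _ (by rw [mul_comm]; exact Gamma0_entries hg)) N
  have : Fact ℓ.Prime := ⟨hℓp⟩
  have hN : ¬ ℓ ∣ N := fun h => absurd (Nat.le_of_dvd (NeZero.pos N) h) (not_le.mpr hℓN)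
  rw [slash_eq_of_same_entry f hg (heckeDelta_mem hN) (by rw [← hℓd]; simp [heckeDelta]), ← hℓd]
  set c := ε (ℓ : ZMod N)
  set h : CuspForm (Gamma1 N) 1 := slashForm f (heckeDelta_mem hN) - c • f
  have hh' : ⇑h = ⇑f ∣[(1 : ℤ)] heckeDelta ℓ N hN - c • ⇑f := rfl
  set D := ModularForm.heckeDiagMatrix ℓ
  have hσ : UpperHalfPlane.σ D = ContinuousAlgEquiv.refl ℝ ℂ := ModularForm.σ_heckeDiagMatrix ℓ
  have hfb := bddPer_Gamma1 f
  -- the relation as functions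
  have key : ModularForm.heckeU 1 ℓ ⇑f + c • (⇑f ∣[(1 : ℤ)] D) = qCoeff f ℓ • ⇑f := by
    have hU : BddPer (ModularForm.heckeU 1 ℓ ⇑f) :=
      ⟨ModularForm.mdifferentiable_heckeU hfb.1 _ _,
        ModularForm.periodic_heckeU_comp_ofComplex hfb.2.1 _ _,
        ModularForm.isBoundedAtImInfty_heckeU hfb.2.2 _ _⟩
    have hT : BddPer (ModularForm.heckeT 1 ℓ ⇑f) :=
      ⟨ModularForm.mdifferentiable_heckeT hfb.1 _ _,
        ModularForm.periodic_heckeT_comp_ofComplex hfb.2.1 _ _,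
        ModularForm.isBoundedAtImInfty_heckeT hfb.2.2 _ _⟩
    have hconst : ∀ a : ℂ, BddPer fun _ : ℍ => a := BddPer.const
    have e1 : ModularForm.heckeU 1 ℓ ⇑f + c • (⇑f ∣[(1 : ℤ)] D) =
        (fun _ : ℍ => (1 - c)) * ModularForm.heckeU 1 ℓ ⇑f +
          (fun _ : ℍ => c) * ModularForm.heckeT 1 ℓ ⇑f := by
      funext z
      simp only [ModularForm.heckeT, Pi.add_apply, Pi.mul_apply, Pi.smul_apply, smul_eq_mul]
      ring
    rw [e1, show qCoeff f ℓ • ⇑f = (fun _ : ℍ => qCoeff f ℓ) * ⇑f from rfl]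
    refine bddPer_ext (((hconst _).mul hU).add ((hconst c).mul hT))
      ((hconst (qCoeff f ℓ)).mul hfb) ?_
    ext n
    rw [qExpansion_add ((hconst _).mul hU).analyticAt ((hconst c).mul hT).analyticAt,
      qExpansion_mul (hconst _).analyticAt hU.analyticAt,
      qExpansion_mul (hconst _).analyticAt hT.analyticAt,
      qExpansion_mul (hconst _).analyticAt hfb.analyticAt]
    have hC : ∀ a : ℂ, qExpansion 1 (fun _ : ℍ => a) = PowerSeries.C a := fun a => by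
      have h : qExpansion 1 (a • (1 : ℍ → ℂ)) = a • qExpansion 1 (1 : ℍ → ℂ) :=
        qExpansion_smul (f := (1 : ℍ → ℂ)) (hconst 1).analyticAt a
      rw [qExpansion_one, PowerSeries.smul_eq_C_mul, mul_one] at h
      rw [← h]
      congr 1
      funext z
      simp
    rw [hC, hC, hC, map_add, PowerSeries.coeff_C_mul, PowerSeries.coeff_C_mul,
      PowerSeries.coeff_C_mul]
    change (1 - c) * qCoeff _ n + c * qCoeff _ n = qCoeff f ℓ * qCoeff f n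
    rw [UpperHalfPlane.qCoeff_heckeU (by exact_mod_cast hfb.2.1) hfb.1 hfb.2.2 1 hℓp.ne_zero n,
      UpperHalfPlane.qCoeff_heckeT (by exact_mod_cast hfb.2.1) hfb.1 hfb.2.2 1 hℓp.ne_zero n,
      ModularForm.coeffHeckeU_apply, ModularForm.coeffHeckeT_apply, mul_comm n ℓ,
      ← hf.hecke ℓ hℓp hN n]
    simp only [sub_self, zpow_zero, one_mul]
    ring
  have hhD : ⇑h ∣[(1 : ℤ)] D =
      (∑ i, ⇑f ∣[(1 : ℤ)] toReal ((HM.hecke N (⊥ : Subgroup (ZMod N)ˣ) ℓ).toReps.B i)) -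
        qCoeff f ℓ • ⇑f := by
    rw [heckeSum_eq hN, ← key, hh', sub_eq_add_neg, SlashAction.add_slash, SlashAction.neg_slash,
      ModularForm.smul_slash, hσ, ContinuousAlgEquiv.refl_apply]
    abel
  have hdl : IsDoubleLevel ℓ h := fun γ hγ => by
    rw [hhD, sub_eq_add_neg, SlashAction.add_slash, SlashAction.neg_slash, heckeSum_invariant f hγ,
      ModularForm.SL_smul_slash,
      HM.slash_of_mem f hγ]
  have h0 := hdl.eq_zero hN
  rw [hh', sub_eq_zero] at h0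
  exact h0

end Fermat.DS

end
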