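import Fermat.Agent.JAC.XH.HeckeS2
import Fermat.Agent.BAD.XH.HeckeForms

/-!
# Cusp forms of weight two are the additive functions on the Hecke ring

`g ↦ (P ↦ a₁(P g))` is a bijection between `S₂(Γ_H(N))` and the additive maps from the Hecke ring
to `ℂ`.  So the coefficients of a form lie in a finitely generated group, and additive maps of
such a group move forms to forms, commuting with every operator.
-/

set_option autoImplicit false

noncomputable section

open MvPolynomial ModularFormClass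

namespace Fermat.DS

open Fermat.MC.Lvl Fermat.JAC Fermat.JAC.XH

variable (N : ℕ) [NeZero N] (H : Subgroup (ZMod N)ˣ) [NegMem H]

local notation "S2" => CuspForm (GammaH N H) 2
local notation "Lab" => MvPolynomial (Nat.Primes ⊕ (ZMod N)ˣ) ℤ

set_option maxRecDepth 1024 in -- headroom for the instance searches on regular differentials
/-- The coefficients of `T ℓ g`. -/
theorem qCoeff_formHecke (ℓ : ℕ) [hℓ : Fact ℓ.Prime] (g : S2) (n : ℕ) :
    qCoeff (HM.formHecke N H ℓ g) n = qCoeff g (ℓ * n) +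
      if h : ℓ ∣ N then 0 else
        if ℓ ∣ n then (ℓ : ℂ) * qCoeff (HM.formDia N H (unitOf N hℓ.out h)⁻¹ g) (n / ℓ) else 0 := by
  have : NeZero ℓ := ⟨hℓ.out.ne_zero⟩
  have h := Fermat.BAD.XH.aCoeff_corrH N H ℓ hℓ.out n (eS2 (GammaH N H) g)
  rw [corrH_eS2, aCoeff_eS2, aCoeff_eS2] at h
  rw [h]
  congr 1
  by_cases hN : ℓ ∣ N
  · rw [dif_pos hN]; unfold diaOr; rw [dif_pos (show ((⟨ℓ, hℓ.out⟩ : Nat.Primes) : ℕ) ∣ N from hN),
      LinearMap.zero_apply, map_zero, mul_zero, ite_self]
  · rw [dif_neg hN]; unfold diaOr;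
      rw [dif_neg (show ¬ ((⟨ℓ, hℓ.out⟩ : Nat.Primes) : ℕ) ∣ N from hN), diaReg_eS2, aCoeff_eS2]

omit [NegMem H] in
/-- The action is multiplicative. -/
theorem formAct_mul_apply (P Q : Lab) (g : S2) :
    HM.formAct N H (P * Q) g = HM.formAct N H P (HM.formAct N H Q g) := by
  rw [map_mul, Module.End.mul_apply]

/-- Coefficients commute with subtraction. -/
theorem qCoeff_sub (f g : S2) (n : ℕ) : qCoeff (f - g : S2) n = qCoeff f n - qCoeff g n := by
  rw [← aCoeff_eS2, map_sub, map_sub, aCoeff_eS2, aCoeff_eS2]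

/-- **Every coefficient is the first coefficient of a transform.** -/
theorem exists_coeffPoly (n : ℕ) : ∃ P : Lab, ∀ g : S2,
    qCoeff g n = qCoeff (HM.formAct N H P g) 1 := by
  induction n using Nat.strong_induction_on with
  | _ n ih =>
    rcases eq_or_ne n 0 with rfl | hn0
    · refine ⟨0, fun g => ?_⟩
      rw [← aCoeff_eS2, aCoeff_zero, map_zero, LinearMap.zero_apply, LinearMap.zero_apply,
        ← aCoeff_eS2, map_zero, map_zero]
    rcases eq_or_ne n 1 with rfl | hn1
    · exact ⟨1, fun g => by rw [map_one, Module.End.one_apply]⟩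
    obtain ⟨hp, m, hm⟩ : n.minFac.Prime ∧ n.minFac ∣ n := ⟨Nat.minFac_prime hn1, n.minFac_dvd⟩
    -- split off the least prime `ℓ` and use its Hecke operator at `m = n / ℓ`
    set ℓ := n.minFac with hℓdef
    have : Fact ℓ.Prime := ⟨hp⟩
    have hm0 : m ≠ 0 := by rintro rfl; simp at hm; exact hn0 hm
    have hlt : m < n := by rw [hm]; exact lt_mul_of_one_lt_left hm0.bot_lt hp.one_lt
    obtain ⟨P, hP⟩ := ih m hlt
    obtain ⟨Q, hQ⟩ := ih (m / ℓ) ((Nat.div_le_self _ _).trans_lt hlt)
    let T : Lab := X (Sum.inl ⟨ℓ, hp⟩)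
    -- the cases `ℓ ∣ N`, `ℓ ∣ m` (remove the diamond term) and neither
    by_cases hN : ℓ ∣ N
    · refine ⟨P * T, fun g => ?_⟩
      rw [formAct_mul_apply, ← hP, HM.formAct_X]
      change _ = qCoeff (HM.formHecke N H ℓ g) m
      rw [qCoeff_formHecke, dif_pos hN, add_zero, ← hm]
    by_cases hd : ℓ ∣ m
    · let D : Lab := X (Sum.inr (unitOf N hp hN)⁻¹)
      refine ⟨P * T - ℓ • (Q * D), fun g => ?_⟩
      rw [map_sub, map_nsmul, LinearMap.sub_apply, LinearMap.smul_apply, qCoeff_sub,
        formAct_mul_apply, ← hP, formAct_mul_apply, HM.formAct_X, HM.formAct_X,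
        ← aCoeff_eS2 (GammaH N H) 1 (ℓ • _), map_nsmul, map_nsmul, aCoeff_eS2, ← hQ]
      change _ = qCoeff (HM.formHecke N H ℓ g) m - _
      rw [qCoeff_formHecke, dif_neg hN, if_pos hd, ← hm, nsmul_eq_mul]
      change _ = _ - (ℓ : ℂ) * qCoeff (HM.formDia N H (unitOf N hp hN)⁻¹ g) (m / ℓ)
      ring
    · refine ⟨P * T, fun g => ?_⟩
      rw [formAct_mul_apply, ← hP, HM.formAct_X]
      change _ = qCoeff (HM.formHecke N H ℓ g) m
      rw [qCoeff_formHecke, dif_neg hN, if_neg hd, add_zero, ← hm]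

/-- `P ↦ a₁(P g)` on the Hecke ring. -/
def coeffHom (g : S2) : (heckeGens N H).R →+ ℂ where
  toFun t := (t : Module.End ℂ (DiffDual (FL (GammaH N H) ℂ))) (heckeGens N H).cyclic
    (eS2 (GammaH N H) g)
  map_zero' := rfl
  map_add' _ _ := rfl

/-- `coeffHom g` sends the image of `P` to the first coefficient of `P g`. -/
theorem coeffHom_ringEval (g : S2) (P : Lab) :
    coeffHom N H g (ringEval N H P) = qCoeff (HM.formAct N H P g) 1 := by
  change (ringEval N H P : Module.End ℂ (DiffDual (FL (GammaH N H) ℂ)))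
      (aCoeff (GammaH N H) 1) _ = _
  rw [ringEval_apply, aCoeff_eS2]

/-- The group of first coefficients of the transforms of `g`. -/
def coeffGroup (g : S2) : Submodule ℤ ℂ := LinearMap.range (coeffHom N H g).toIntLinearMap

/-- The coefficient group is finitely generated. -/
theorem coeffGroup_fg (g : S2) : (coeffGroup N H g).FG :=
  Module.Finite.iff_fg.mp (Module.Finite.range _)

/-- Coefficients of images of a form lie in its coefficient group. -/
theorem qCoeff_formAct_mem (g : S2) (P : Lab) (n : ℕ) :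
    qCoeff (HM.formAct N H P g) n ∈ coeffGroup N H g := by
  obtain ⟨Q, hQ⟩ := exists_coeffPoly N H n
  rw [hQ, ← formAct_mul_apply, ← coeffHom_ringEval]
  exact ⟨_, rfl⟩

/-- Coefficients of a form lie in its coefficient group. -/
theorem qCoeff_mem_coeffGroup (g : S2) (n : ℕ) : qCoeff g n ∈ coeffGroup N H g := by
  have h := qCoeff_formAct_mem N H g 1 n
  rwa [map_one, Module.End.one_apply] at h

omit [NeZero N] [NegMem H] in
/-- Operators independent over `ℂ` with a cyclic vector: additive functions are linear forms at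
that vector. -/
theorem exists_dual_of_cyclic {V R ι : Type*} [AddCommGroup V] [Module ℂ V] [CommRing R] [Fintype ι]
    (op : R →+* Module.End ℂ V) (τ : Module.Basis ι ℤ R)
    (hind : LinearIndependent ℂ fun j => op (τ j)) (v₀ : V)
    (hcyc : Submodule.span ℂ (Set.range fun t => op t v₀) = ⊤) (φ : R →+ ℂ) :
    ∃ L : Module.Dual ℂ V, ∀ t, L (op t v₀) = φ t := by
  have hw : LinearIndependent ℂ fun j => op (τ j) v₀ := by
    refine Fintype.linearIndependent_iff.mpr fun c hc => ?_
    refine Fintype.linearIndependent_iff.mp hind c (LinearMap.ext_on hcyc ?_)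
    rintro _ ⟨a, rfl⟩
    have h := congrArg (op a) hc
    rw [map_sum, map_zero] at h
    rw [LinearMap.zero_apply, LinearMap.sum_apply]
    refine Eq.trans (Finset.sum_congr rfl fun j _ => ?_) h
    rw [map_smul, LinearMap.smul_apply, ← Module.End.mul_apply, ← Module.End.mul_apply, ← map_mul,
      ← map_mul, mul_comm]
  have hsum : ∀ t, op t v₀ = ∑ j, τ.repr t j • op (τ j) v₀ := fun t => by
    conv_lhs => rw [← τ.sum_repr t]
    rw [map_sum, LinearMap.sum_apply]
    exact Finset.sum_congr rfl fun j _ => by rw [map_zsmul, LinearMap.smul_apply]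
  have hspan : ⊤ ≤ Submodule.span ℂ (Set.range fun j => op (τ j) v₀) := by
    rw [← hcyc, Submodule.span_le]
    rintro _ ⟨a, rfl⟩
    change op a v₀ ∈ Submodule.span ℂ (Set.range fun j => op (τ j) v₀)
    rw [hsum]
    exact Submodule.sum_mem _ fun j _ => zsmul_mem (Submodule.subset_span (Set.mem_range_self j)) _
  refine ⟨(Module.Basis.mk hw hspan).constr ℂ fun j => φ (τ j), fun t => ?_⟩
  rw [hsum, map_sum]
  conv_rhs => rw [← τ.sum_repr t]
  rw [map_sum]
  refine Finset.sum_congr rfl fun j _ => ?_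
  rw [map_zsmul, map_zsmul, ← Module.Basis.mk_apply hw hspan j, Module.Basis.constr_basis]

/-- **Every additive function on the Hecke ring is a form.** -/
theorem exists_form_of_addHom (φ : (heckeGens N H).R →+ ℂ) :
    ∃ g : S2, coeffHom N H g = φ := by
  let G := heckeGens N H
  let τ := Module.Free.chooseBasis ℤ G.R
  have hind := linearIndependent_op (Algebra.adjoin ℤ G.gens).val.toRingHom Subtype.val_injective
    (fun t v hv => G.apply_mem t hv) G.conj_conj G.conj_apply τ
  obtain ⟨L, hL⟩ := exists_dual_of_cyclic (Algebra.adjoin ℤ G.gens).val.toRingHom τ hind G.cyclic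
    G.span_cyclic φ
  obtain ⟨ω, rfl⟩ := (Module.evalEquiv ℂ (regDiff (FL (GammaH N H) ℂ))).surjective L
  obtain ⟨g, rfl⟩ := (eS2 (GammaH N H)).surjective ω
  exact ⟨g, AddMonoidHom.ext fun t => hL t⟩

/-- **Moving a form by an additive map of its coefficient group.** -/
theorem exists_moved (g : S2) (χ : coeffGroup N H g →+ ℂ) :
    ∃ g' : S2, ∀ (P : Lab) (n : ℕ), qCoeff (HM.formAct N H P g') n =
      χ ⟨qCoeff (HM.formAct N H P g) n, qCoeff_formAct_mem N H g P n⟩ := by
  let φ : (heckeGens N H).R →+ ℂ := χ.comp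
    (LinearMap.rangeRestrict (coeffHom N H g).toIntLinearMap).toAddMonoidHom
  obtain ⟨g', hg'⟩ := exists_form_of_addHom N H φ
  refine ⟨g', fun P n => ?_⟩
  obtain ⟨Q, hQ⟩ := exists_coeffPoly N H n
  rw [hQ, ← formAct_mul_apply, ← coeffHom_ringEval, hg']
  refine congrArg χ (Subtype.ext ?_)
  change coeffHom N H g (ringEval N H (Q * P)) = qCoeff (HM.formAct N H P g) n
  rw [hQ, coeffHom_ringEval, formAct_mul_apply]

/-- An additive map of the coefficient group of `g` gives a form with the image coefficients. -/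
theorem exists_moved_qCoeff (g : S2) (χ : coeffGroup N H g →+ ℂ) :
    ∃ g' : S2, ∀ n : ℕ, qCoeff g' n = χ ⟨qCoeff g n, qCoeff_mem_coeffGroup N H g n⟩ := by
  obtain ⟨g', h⟩ := exists_moved N H g χ
  refine ⟨g', fun n => ?_⟩
  have h1 := h 1 n
  simp only [map_one, Module.End.one_apply] at h1
  exact h1

end Fermat.DS

end
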